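/-
Row 37 (S43).  helper209.  ASSEMBLY, part 1: elementary consequences of the contract `Lift.Data`
(`S43/Lift/Defs.lean`, helper126): the norm, `ker (δ - 1) = im π^*` (by counting), divisibility at level `Γ₀`,
the counting datum `Cnt.Data` (helper210) and the three quadratic relations up to the denominator `p ^ a`.
Mathlib only (+ the abstract files `T2/Abs`, `T2/Devissage`).
-/
import Fermat.Agent.S43.Lift.Defs
import Fermat.Agent.S43.LiftP.Cnt.Abs
import Fermat.Agent.S43.LiftP.Cnt.Devissage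

set_option autoImplicit false

namespace Fermat.Agent.S43.LiftP

open Fermat.Agent.S43

variable {p : ℕ} [Fact p.Prime] (D : Lift.Data p)

theorem kpos : 0 < D.k := lt_of_lt_of_le (Nat.succ_pos _) D.hk

instance finiteG0 : Finite D.G0 := Finite.of_surjective D.pr D.pr_surj

theorem pk0 (y : D.G0) : p ^ D.k • y = 0 := by
  obtain ⟨x, rfl⟩ := D.pr_surj y
  rw [← map_nsmul, D.pk, map_zero]

/-- the norm element of `Δ` -/
def NmG : AddMonoid.End D.G := ∑ j ∈ Finset.range (p ^ D.a), D.dl ^ j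

theorem NmG_apply (x : D.G) : NmG D x = D.inc (D.pr x) := by
  rw [D.inc_pr, NmG]
  exact AddMonoidHom.finsetSum_apply _ _ _

theorem commute_NmG {f : AddMonoid.End D.G} (h : Commute f D.dl) : Commute f (NmG D) :=
  Commute.sum_right _ _ _ fun _ _ => h.pow_right _

/-- an operator commuting with `δ` and compatible with `π_*` is compatible with `π^*` -/
theorem apply_inc {f : AddMonoid.End D.G} {f0 : AddMonoid.End D.G0} (h : Commute f D.dl)
    (hpr : ∀ x, D.pr (f x) = f0 (D.pr x)) (y : D.G0) : f (D.inc y) = D.inc (f0 y) := by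
  obtain ⟨x, rfl⟩ := D.pr_surj y
  rw [← NmG_apply, ← hpr, ← NmG_apply]
  exact congrArg (fun g : AddMonoid.End D.G => g x) (commute_NmG D h).eq

theorem dl_inc (y : D.G0) : D.dl (D.inc y) = D.inc y :=
  apply_inc D (f0 := 1) (Commute.refl _) (fun x => D.pr_dl x) y

theorem S_inc (y : D.G0) : D.S (D.inc y) = D.inc (D.S0 y) := apply_inc D D.S_dl D.pr_S y

theorem U_inc (y : D.G0) : D.U (D.inc y) = D.inc (D.U0 y) := apply_inc D D.U_dl D.pr_U y

/-- `ker (δ - 1) = im π^*`, by counting. -/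
theorem exists_inc_of_dl_eq (x : D.G) (hx : D.dl x = x) : ∃ y, x = D.inc y := by
  set Tm : D.G →+ D.G := (D.dl - 1 : AddMonoid.End D.G) with hTm
  set Nn : D.G →+ D.G := NmG D with hNn
  have hker : Nn.ker = Tm.range := by
    ext z
    constructor
    · intro hz
      have hz' : D.inc (D.pr z) = 0 := by rw [← NmG_apply]; exact hz
      have h0 : D.pr z = 0 := D.inc_inj (by rw [hz', map_zero])
      obtain ⟨w, hw⟩ := D.ker_pr z h0
      exact ⟨w, hw.symm⟩
    · rintro ⟨w, rfl⟩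
      show NmG D (D.dl w - w) = 0
      rw [NmG_apply, map_sub, D.pr_dl, sub_self, map_zero]
  have hle : Nn.range ≤ Tm.ker := by
    rintro _ ⟨w, rfl⟩
    show D.dl (NmG D w) - NmG D w = 0
    rw [NmG_apply, dl_inc, sub_self]
  have h1 := AddSubgroup.card_mul_index Nn.ker
  have h2 := AddSubgroup.card_mul_index Tm.ker
  rw [AddSubgroup.index_ker] at h1 h2
  rw [hker] at h1
  have h3 : Nat.card Tm.range * Nat.card Nn.range = Nat.card Tm.range * Nat.card Tm.ker := by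
    rw [h1, ← h2, mul_comm]
  have h4 : Nat.card Nn.range = Nat.card Tm.ker :=
    Nat.eq_of_mul_eq_mul_left Nat.card_pos h3
  have h5 : Nn.range = Tm.ker := AddSubgroup.eq_of_le_of_card_ge hle h4.ge
  have hx' : x ∈ Tm.ker := by
    show D.dl x - x = 0
    rw [hx, sub_self]
  rw [← h5] at hx'
  obtain ⟨w, rfl⟩ := hx'
  exact ⟨D.pr w, NmG_apply D w⟩

/-- `G0` is `ℤ / p ^ k`-free, in the divisibility form. -/
theorem hdiv0 : ∀ j, j ≤ D.k → ∀ y : D.G0, p ^ j • y = 0 → ∃ z, y = p ^ (D.k - j) • z := by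
  intro j
  induction j with
  | zero =>
    intro _ y hy
    refine ⟨0, ?_⟩
    rw [smul_zero]
    simpa using hy
  | succ j ih =>
    intro hj y hy
    obtain ⟨z, hz⟩ := ih (Nat.le_of_succ_le hj) (p • y) (by rw [← mul_smul, ← pow_succ]; exact hy)
    have e1 : D.k - j = (D.k - (j + 1)) + 1 := by omega
    obtain ⟨z', hz'⟩ := D.free0a (y - p ^ (D.k - (j + 1)) • z) (by
      rw [smul_sub, hz, ← mul_smul, ← pow_succ', ← e1, sub_self])
    have e2 : D.k - 1 = (D.k - (j + 1)) + j := by omega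
    refine ⟨z + p ^ j • z', ?_⟩
    rw [smul_add, ← mul_smul, ← pow_add, ← e2, ← hz']
    abel

/-- `N₀ = σ - 1` at level `Γ₀`. -/
def N0 : D.G0 →+ D.G0 := (D.S0 - 1 : AddMonoid.End D.G0)

theorem N0_apply (y : D.G0) : N0 D y = D.S0 y - y := rfl

theorem N0_eq_zero {y : D.G0} : N0 D y = 0 ↔ D.S0 y = y := sub_eq_zero

theorem N0_N0 (y : D.G0) : N0 D (N0 D y) = 0 := by
  obtain ⟨x, rfl⟩ := D.pr_surj y
  have h := D.prK_i _ (D.t1 x)
  rw [N0_eq_zero, N0_apply, ← D.pr_S, ← map_sub]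
  exact h

theorem hE1 (y : D.G0) (hy : p • y = 0) (h : N0 D y = 0) : ∃ z, p • z = 0 ∧ y = N0 D z :=
  D.exact0 y hy ((N0_eq_zero D).1 h)

/-- the counting datum -/
def t2 : Cnt.Data p D.k D.a D.G D.G0 where
  hk := kpos D
  hW := D.pk
  δ := D.dl
  a := (D.S - 1 : AddMonoid.End D.G)
  N₀ := N0 D
  pr := D.pr
  inc := D.inc
  hδ := D.dl_pow
  pr_surj := D.pr_surj
  pr_δ := D.pr_dl
  ker_pr := D.ker_pr
  inc_inj := D.inc_inj
  δ_inc := dl_inc D
  inc_pr := D.inc_pr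
  pr_a := fun x => by
    show D.pr (D.S x - x) = D.S0 (D.pr x) - D.pr x
    rw [map_sub, D.pr_S]
  a_inc := fun y => by
    show D.S (D.inc y) - D.inc y = D.inc (D.S0 y - y)
    rw [map_sub, S_inc]
  hE := Cnt.dev_hE p D.k (N0 D) (kpos D) (pk0 D) (N0_N0 D) (hE1 D) (hdiv0 D)
  hpure := Cnt.dev_hpure p D.k (N0 D) (kpos D) (pk0 D) (N0_N0 D) (hE1 D) (hdiv0 D)
  K := D.Ki
  K' := D.Kz
  K_δ := D.Ki_dl
  K'_δ := D.Kz_dl
  aK := D.t1
  bK' := fun x => by
    have h : D.S x - x - (D.dl x - x) = D.S x - D.dl x := by abel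
    show D.S x - x - (D.dl x - x) ∈ D.Kz
    rw [h]
    exact D.t3 x
  prK := fun x hx => (N0_eq_zero D).2 (D.prK_i x hx)
  prK' := fun x hx => (N0_eq_zero D).2 (D.prK_z x hx)
  γ := fun y hy => (N0_eq_zero D).2 (D.gam_i y hy)
  γ' := fun y hy => (N0_eq_zero D).2 (D.gam_z y hy)

/-- the denominator trick -/
theorem smul_eq_zero {x : D.G} (hi : x ∈ D.Ki) (hz : x ∈ D.Kz) (h0 : D.pr x = 0) :
    p ^ D.a • x = 0 :=
  (t2 D).smul_eq_zero_of_mem hi hz h0

theorem r1 (x : D.G) : p ^ D.a • (D.S (D.S x - x) - D.dl (D.S x - x)) = 0 := by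
  refine smul_eq_zero D ?_ (D.t3 _) ?_
  · exact sub_mem (D.Ki_S _ (D.t1 x)) (D.Ki_dl _ (D.t1 x))
  · rw [map_sub, D.pr_dl, D.pr_S, D.prK_i _ (D.t1 x), sub_self]

theorem r2 (x : D.G) : p ^ D.a • (D.S (D.F x - D.U x) - D.dl (D.F x - D.U x)) = 0 := by
  refine smul_eq_zero D ?_ (D.t3 _) ?_
  · exact sub_mem (D.Ki_S _ (D.t2 x)) (D.Ki_dl _ (D.t2 x))
  · rw [map_sub, D.pr_dl, D.pr_S, D.prK_i _ (D.t2 x), sub_self]

theorem r2' (x : D.G) : p ^ D.a • (D.S (D.F x - D.Ut x) - (D.F x - D.Ut x)) = 0 := by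
  refine smul_eq_zero D (D.t1 _) ?_ ?_
  · exact sub_mem (D.Kz_S _ (D.t4 x)) (D.t4 x)
  · rw [map_sub, D.pr_S, D.prK_z _ (D.t4 x), sub_self]

end Fermat.Agent.S43.LiftP
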