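/-
Row 37 (S43).  helper209.  ASSEMBLY, part 2:  `Lift.Data p → CoreP.Data p`, hence `Lift.Data p → False`.

`W := p ^ (k - 1) G` (an `𝔽_p`-space; no need of `G[p] = p ^ (k - 1) G`), all operators restricted to `W`.
* `R1`, `R2`, `R2'` : `LiftP.r1`, `r2`, `r2'` (counting `T2.Data` + denominator trick) and `k - 1 ≥ a`;
* `H1`, `exact`, `hc`, `U_unit` : `ker (δ - 1) = im π^*` + `free0a`.
The core is helper28's kernel-checked `CoreP.false_of_data`.
-/
import Fermat.Agent.S43.LiftP.Basic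
import Fermat.Agent.S43.CoreP

set_option autoImplicit false

namespace Fermat.Agent.S43.LiftP

open Fermat.Agent.S43

variable {p : ℕ} [Fact p.Prime] (D : Lift.Data p)

/-- `W = p ^ (k - 1) G`. -/
def Wp : AddSubgroup D.G := (nsmulAddMonoidHom (p ^ (D.k - 1)) : D.G →+ D.G).range

theorem mem_Wp {x : D.G} : x ∈ Wp D ↔ ∃ y, x = p ^ (D.k - 1) • y :=
  ⟨fun ⟨y, hy⟩ => ⟨y, hy.symm⟩, fun ⟨y, hy⟩ => ⟨y, hy.symm⟩⟩

theorem smul_mem_Wp (y : D.G) : p ^ (D.k - 1) • y ∈ Wp D := ⟨y, rfl⟩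

theorem p_smul_of_mem {x : D.G} (hx : x ∈ Wp D) : p • x = 0 := by
  obtain ⟨y, rfl⟩ := (mem_Wp D).1 hx
  rw [← mul_smul, ← pow_succ', Nat.sub_add_cancel (kpos D), D.pk]

theorem p_smul_Wp (x : Wp D) : p • x = 0 := Subtype.ext (p_smul_of_mem D x.2)

noncomputable instance modWp : Module (ZMod p) (Wp D) := AddCommGroup.zmodModule (p_smul_Wp D)

theorem apply_mem (f : AddMonoid.End D.G) {x : D.G} (hx : x ∈ Wp D) : f x ∈ Wp D := by
  obtain ⟨y, rfl⟩ := (mem_Wp D).1 hx
  rw [map_nsmul]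
  exact smul_mem_Wp D _

/-- restriction of an endomorphism of `G` to `W` -/
def resHom (f : AddMonoid.End D.G) : Wp D →+ Wp D :=
  AddMonoidHom.codRestrict (AddMonoidHom.comp f (Wp D).subtype) (Wp D)
    (fun x => apply_mem D f x.2)

/-- restriction, as a ring homomorphism -/
noncomputable def res : AddMonoid.End D.G →+* Module.End (ZMod p) (Wp D) where
  toFun f := (resHom D f).toZModLinearMap p
  map_one' := LinearMap.ext fun _ => Subtype.ext rfl
  map_mul' _ _ := LinearMap.ext fun _ => Subtype.ext rfl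
  map_zero' := LinearMap.ext fun _ => Subtype.ext rfl
  map_add' _ _ := LinearMap.ext fun _ => Subtype.ext rfl

theorem coe_res (f : AddMonoid.End D.G) (x : Wp D) : ((res D f x : Wp D) : D.G) = f x := rfl

theorem res_eq_zero {f : AddMonoid.End D.G} (h : ∀ x ∈ Wp D, f x = 0) : res D f = 0 :=
  LinearMap.ext fun x => Subtype.ext (h x x.2)

/-- an endomorphism killed by `p ^ a` vanishes on `W` -/
theorem res_eq_zero_of_smul {f : AddMonoid.End D.G} (h : ∀ x, p ^ D.a • f x = 0) : res D f = 0 := by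
  refine res_eq_zero D fun x hx => ?_
  obtain ⟨y, rfl⟩ := (mem_Wp D).1 hx
  have e : D.k - 1 = (D.k - 1 - D.a) + D.a := by have := D.hk; omega
  rw [map_nsmul, e, pow_add, mul_smul, h, smul_zero]

theorem nontrivial_Wp : Nontrivial (Wp D) := by
  obtain ⟨y, hy⟩ := exists_ne (0 : D.G0)
  -- a nonzero element of `G0[p]`
  have h1 : ∃ z : D.G0, z ≠ 0 ∧ p • z = 0 := by
    have hex : ∃ j, p ^ j • y = 0 := ⟨D.k, pk0 D y⟩
    classical
    have hj0 : Nat.find hex ≠ 0 := by
      intro h0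
      have := Nat.find_spec hex
      rw [h0, pow_zero, one_smul] at this
      exact hy this
    obtain ⟨j, hj⟩ := Nat.exists_eq_succ_of_ne_zero hj0
    refine ⟨p ^ j • y, Nat.find_min hex (by omega), ?_⟩
    have := Nat.find_spec hex
    rwa [hj, Nat.succ_eq_add_one, pow_succ', mul_smul] at this
  obtain ⟨z, hz0, hz⟩ := h1
  obtain ⟨z', rfl⟩ := D.free0a z hz
  obtain ⟨x, rfl⟩ := D.pr_surj z'
  refine ⟨⟨⟨p ^ (D.k - 1) • x, smul_mem_Wp D x⟩, 0, ?_⟩⟩
  intro h
  apply hz0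
  have h' : p ^ (D.k - 1) • x = 0 := congrArg Subtype.val h
  rw [← map_nsmul, h', map_zero]

/-- `T = δ - 1` on `W` -/
noncomputable def TT : Module.End (ZMod p) (Wp D) := res D D.dl - 1

theorem one_add_TT : 1 + TT D = res D D.dl := by rw [TT]; abel

theorem TT_apply_eq_zero {x : Wp D} : TT D x = 0 ↔ D.dl (x : D.G) = x := by
  rw [TT, LinearMap.sub_apply, sub_eq_zero, Module.End.one_apply]
  exact ⟨fun h => congrArg Subtype.val h, fun h => Subtype.ext h⟩

theorem Nm_eq : CoreP.Nm (TT D) (p ^ D.a) = res D (NmG D) := by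
  rw [CoreP.Nm, one_add_TT, NmG, map_sum]
  exact Finset.sum_congr rfl fun j _ => (map_pow _ _ _).symm

theorem coe_Nm (x : Wp D) :
    ((CoreP.Nm (TT D) (p ^ D.a) x : Wp D) : D.G) = D.inc (D.pr (x : D.G)) := by
  rw [Nm_eq, coe_res, NmG_apply]

theorem δ_pow : (1 + TT D) ^ (p ^ D.a) = 1 := by
  rw [one_add_TT, ← map_pow, D.dl_pow, map_one]

theorem TT_nilp : IsNilpotent (TT D) := by
  obtain ⟨R, hR⟩ := Cnt.exists_pow_eq p D.a (TT D) (δ_pow D)
  refine ⟨p ^ D.a, ?_⟩
  rw [hR]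
  refine LinearMap.ext fun x => ?_
  rw [LinearMap.smul_apply, p_smul_Wp]
  rfl

/-- elements of `W` fixed by `δ` -/
theorem exists_of_fixed (x : Wp D) (hx : TT D x = 0) :
    ∃ y0 : D.G0, p • y0 = 0 ∧ (x : D.G) = D.inc y0 := by
  obtain ⟨y0, hy0⟩ := exists_inc_of_dl_eq D x ((TT_apply_eq_zero D).1 hx)
  refine ⟨y0, D.inc_inj ?_, hy0⟩
  rw [map_nsmul, ← hy0, p_smul_of_mem D x.2, map_zero]

/-- a `p`-torsion class at level `Γ₀` is `π_*` of an element of `W` -/
theorem exists_pr_eq (y0 : D.G0) (hy : p • y0 = 0) : ∃ z : Wp D, D.pr (z : D.G) = y0 := by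
  obtain ⟨z0, rfl⟩ := D.free0a y0 hy
  obtain ⟨z, rfl⟩ := D.pr_surj z0
  exact ⟨⟨p ^ (D.k - 1) • z, smul_mem_Wp D z⟩, map_nsmul _ _ _⟩

theorem H1 (x : Wp D) (hx : TT D x = 0) : ∃ y, x = CoreP.Nm (TT D) (p ^ D.a) y := by
  obtain ⟨y0, hy0, hxy⟩ := exists_of_fixed D x hx
  obtain ⟨z, hz⟩ := exists_pr_eq D y0 hy0
  exact ⟨z, Subtype.ext (by rw [coe_Nm, hz, hxy])⟩

theorem U0_inj : Function.Injective D.U0 := Finite.injective_iff_surjective.2 D.U0_surj

theorem TT_U : Commute (TT D) (res D D.U) :=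
  ((D.U_dl.symm.map (res D)).sub_left (Commute.one_left _))

theorem U_inj_aux : ∀ (m : ℕ) (x : Wp D), (TT D ^ m) x = 0 → res D D.U x = 0 → x = 0 := by
  intro m
  induction m with
  | zero => intro x hx _; simpa using hx
  | succ m ih =>
    intro x hx hU
    have h1 : TT D x = 0 := by
      apply ih
      · rw [← Module.End.mul_apply, ← pow_succ]; exact hx
      · rw [← Module.End.mul_apply, ← (TT_U D).eq, Module.End.mul_apply, hU, map_zero]
    obtain ⟨y0, -, hxy⟩ := exists_of_fixed D x h1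
    have h2 : D.U (x : D.G) = 0 := congrArg Subtype.val hU
    rw [hxy, U_inc] at h2
    have h3 : D.U0 y0 = 0 := D.inc_inj (by rw [h2, map_zero])
    have h4 : y0 = 0 := U0_inj D (by rw [h3, map_zero])
    exact Subtype.ext (by rw [hxy, h4, map_zero]; rfl)

theorem U_unit : IsUnit (res D D.U) := by
  rw [Module.End.isUnit_iff]
  have hinj : Function.Injective (res D D.U) := by
    rw [injective_iff_map_eq_zero]
    intro x hx
    obtain ⟨n, hn⟩ := TT_nilp D
    exact U_inj_aux D n x (by rw [hn]; rfl) hx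
  exact Finite.injective_iff_bijective.1 hinj

theorem hc (x : Wp D) : ∃ y, res D D.Ut x - res D D.U x = TT D y := by
  obtain ⟨x', hx'⟩ := (mem_Wp D).1 x.2
  obtain ⟨y', hy'⟩ := D.ker_pr (D.Ut x' - D.U x') (by rw [map_sub, D.pr_Ut, D.pr_U, sub_self])
  refine ⟨⟨p ^ (D.k - 1) • y', smul_mem_Wp D y'⟩, Subtype.ext ?_⟩
  show D.Ut (x : D.G) - D.U (x : D.G) = D.dl (p ^ (D.k - 1) • y') - p ^ (D.k - 1) • y'
  rw [hx', map_nsmul, map_nsmul, map_nsmul, ← smul_sub, ← smul_sub, hy']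

theorem exact (x : Wp D) (hx : TT D x = 0) (hS : res D D.S x = x) :
    ∃ z, TT D z = 0 ∧ x = res D D.S z - z := by
  obtain ⟨y0, hy0, hxy⟩ := exists_of_fixed D x hx
  have h1 : D.S (x : D.G) = x := congrArg Subtype.val hS
  rw [hxy, S_inc] at h1
  obtain ⟨z0, hz0, hyz⟩ := D.exact0 y0 hy0 (D.inc_inj h1)
  obtain ⟨z, hz⟩ := exists_pr_eq D z0 hz0
  refine ⟨CoreP.Nm (TT D) (p ^ D.a) z, ?_, Subtype.ext ?_⟩
  · rw [TT_apply_eq_zero, coe_Nm, dl_inc]
  · show (x : D.G) = D.S ((CoreP.Nm (TT D) (p ^ D.a) z : Wp D) : D.G) -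
      ((CoreP.Nm (TT D) (p ^ D.a) z : Wp D) : D.G)
    rw [coe_Nm, hz, S_inc, ← map_sub, ← hyz, hxy]

theorem R1 : (res D D.S - (1 + TT D)) * (res D D.S - 1) = 0 := by
  rw [one_add_TT, ← map_one (res D), ← map_sub, ← map_sub, ← map_mul]
  exact res_eq_zero_of_smul D (r1 D)

theorem R2 : (res D D.S - (1 + TT D)) * (res D D.F - res D D.U) = 0 := by
  rw [one_add_TT, ← map_sub, ← map_sub, ← map_mul]
  exact res_eq_zero_of_smul D (r2 D)

theorem R2' : (res D D.S - 1) * (res D D.F - res D D.Ut) = 0 := by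
  rw [← map_one (res D), ← map_sub, ← map_sub, ← map_mul]
  exact res_eq_zero_of_smul D (r2' D)

theorem t_nilp (i : D.J) : IsNilpotent (res D (D.t i)) := by
  obtain ⟨n, hn⟩ := D.t_nil i
  refine ⟨n, ?_⟩
  rw [← map_pow]
  exact res_eq_zero D fun x hx => hn x (p_smul_of_mem D hx)

theorem H5 : res D D.S - 1 = ∑ i ∈ (Finset.univ : Finset D.J), res D (D.t i) * res D (D.e i) := by
  refine LinearMap.ext fun x => Subtype.ext ?_
  have h := D.H5 x (p_smul_of_mem D x.2)
  have e1 : (∑ i ∈ (Finset.univ : Finset D.J), res D (D.t i) * res D (D.e i)) =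
      res D (∑ i, D.t i * D.e i) := by
    rw [map_sum]
    exact Finset.sum_congr rfl fun i _ => (map_mul _ _ _).symm
  rw [e1, coe_res]
  show D.S (x : D.G) - x = _
  rw [h]
  exact (AddMonoidHom.finsetSum_apply (fun i => (D.t i * D.e i : AddMonoid.End D.G))
    (Finset.univ : Finset D.J) (x : D.G)).symm

theorem commute_TT {f : AddMonoid.End D.G} (h : Commute f D.dl) : Commute (res D f) (TT D) :=
  (h.map (res D)).sub_right (Commute.one_right _)

/-- **The assembly**: the contract `Lift.Data` gives the contract `CoreP.Data`. -/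
noncomputable def coreP : CoreP.Data p :=
  haveI := nontrivial_Wp D
  { W := Wp D
    P := p ^ D.a
    κ := D.κ
    q := D.q
    hq := D.hq
    hκ := fun h => D.hκ ((ZMod.natCast_eq_zero_iff _ _).1 h)
    T := TT D
    U := res D D.U
    Ut := res D D.Ut
    S := res D D.S
    F := res D D.F
    U_unit := U_unit D
    T_U := TT_U D
    T_S := (commute_TT D D.S_dl).symm
    U_S := (D.S_U.map (res D)).symm
    Ut_S := (D.S_Ut.map (res D)).symm
    δ_pow := δ_pow D
    T_nilp := TT_nilp D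
    H1 := H1 D
    R1 := R1 D
    R2 := R2 D
    R2' := R2' D
    tame := by rw [← map_mul, D.tame, map_mul, map_pow]
    hc := hc D
    ι := D.J
    s := Finset.univ
    t := fun i => res D (D.t i)
    a := fun i => res D (D.e i)
    t_T := fun i => commute_TT D (D.t_dl i)
    t_S := fun i => (D.t_S i).map (res D)
    t_F := fun i => (D.t_F i).map (res D)
    t_U := fun i => (D.t_U i).map (res D)
    t_t := fun i j => (D.t_t i j).map (res D)
    t_nilp := t_nilp D
    a_T := fun i => commute_TT D (D.e_dl i)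
    a_U := fun i => (D.e_U i).map (res D)
    a_Ut := fun i => (D.e_Ut i).map (res D)
    H5 := H5 D
    exact := exact D }

/-- **The contract `Lift.Data` is contradictory.** -/
theorem false_of_lift (D : Lift.Data p) : False := CoreP.false_of_data (coreP D)

end Fermat.Agent.S43.LiftP
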