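/-
Row 37 (S43).  helper209.  TOP THEOREM from the contract `Lift.Data` (helper126, `S43/Lift/Defs.lean`), via
`LiftP.coreP : Lift.Data p → CoreP.Data p` and helper28's `TopP`.
* `result_of_lift  : NodeLift → (frozen S43)`              (`Hyp2`: the level `M q` may be divisible by `p`, no S44);
* `result_of_lift' : NodeS44 → NodeLift' → (frozen S43)`   (`Hyp`: level prime to `p`; `NodeS44` = frozen S44, landed).
-/
import Fermat.Agent.S43.LiftP.Main
import Fermat.Agent.S43.TopP
import Fermat.Agent.S43.Top3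

set_option autoImplicit false
open WeierstrassCurve WeierstrassCurve.Affine WeierstrassCurve.Affine.Point
open CuspForm ModularFormClass UpperHalfPlane
open FreyPackage

namespace Fermat.Agent.S43.LiftP

open Fermat.Agent.S43

/-- **Node LIFT** (any level). -/
def NodeLift : Prop :=
  ∀ (P : FreyPackage) (M q : ℕ), Hyp2 P M q → Nonempty (Lift.Data P.p)

/-- **Node LIFT** (level prime to `p`). -/
def NodeLift' : Prop :=
  ∀ (P : FreyPackage) (M q : ℕ), Hyp P M q → Nonempty (Lift.Data P.p)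

theorem NodeLift.prime (h : NodeLift) : NodeLift' := fun P M q hyp => h P M q hyp.toHyp2

theorem result_of_lift (hD : NodeLift)
    (P : FreyPackage) {N q : ℕ} (hcond : P.IsConductorLevel N) (hq : q.Prime) (hq2 : q ≠ 2)
    (hqp : q ≠ P.p) (hqN : q ∣ N)
    (hirr : GaloisRepIsIrreducible (K := AlgebraicClosure ℚ) ℚ P.freyCurve P.p)
    (hmod : P.ModularRepOfLevel N) (hunr : P.GaloisRepUnramifiedAt q) :
    ∃ M : ℕ, M ∣ N ∧ ¬ q ∣ M ∧ P.ModularRepOfLevel M :=
  result_of_deformP'
    (fun P M q h => (false_of_lift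
      (hD P M q ⟨h.cond, h.hq, h.hq2, h.hqp, h.hirr, h.hmod, h.hunr, h.hnot⟩).some).elim)
    P hcond hq hq2 hqp hqN hirr hmod hunr

theorem result_of_lift' (h44 : NodeS44) (hD : NodeLift')
    (P : FreyPackage) {N q : ℕ} (hcond : P.IsConductorLevel N) (hq : q.Prime) (hq2 : q ≠ 2)
    (hqp : q ≠ P.p) (hqN : q ∣ N)
    (hirr : GaloisRepIsIrreducible (K := AlgebraicClosure ℚ) ℚ P.freyCurve P.p)
    (hmod : P.ModularRepOfLevel N) (hunr : P.GaloisRepUnramifiedAt q) :
    ∃ M : ℕ, M ∣ N ∧ ¬ q ∣ M ∧ P.ModularRepOfLevel M :=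
  result_of_deformP h44 (fun P M q h => (false_of_lift (hD P M q h).some).elim)
    P hcond hq hq2 hqp hqN hirr hmod hunr

end Fermat.Agent.S43.LiftP
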